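import Fermat.Agent.S28.AN.Assemble
import Fermat.Agent.S28.Span
import Fermat.Agent.S28.QRed.KeyInf

/-!
(Verbatim copy of `Fermat/Agent/S18/RED8089/FinGen.lean` by helper8089, namespace renamed to
`Fermat.Agent.S18.HAUPT3442` so that piece 6 of helper3442 is self-contained.)

# S18, package RED, piece R6: the chart `j ≠ ∞` is a finite `ℤ_(ℓ)[j]`-module

`chartAlgFin N ℓ` (integral closure of `ℤ_(ℓ)[j]` in `ℚ(X₀(N))`) is a finitely generated module over
`ℤ_(ℓ)[j]`: Mathlib's `IsIntegralClosure.finite` (`ℤ_(ℓ)[X]` is noetherian and integrally closed,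
`ℚ(X₀(N)) / ℚ(j)` is finite by the landed S28 `span_of_ANData`, separable in characteristic `0`).
No hypothesis on `ℓ` versus `N`.
-/

set_option autoImplicit false
set_option linter.style.haveILetI false

noncomputable section

namespace Fermat.Agent.S18.HAUPT3442

open ModularCurve ModularCurve.IgusaScheme Polynomial Fermat.Agent.S28 Fermat.Agent.S28.QRed

variable (N : ℕ) [NeZero N] (ℓ : ℕ) [Fact ℓ.Prime]

set_option quotPrecheck false in
local notation "Rl" => ↥(GaloisRep.ratLocalizedAt ℓ)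

set_option quotPrecheck false in
local notation "FF" => ↥(modularFunctionFieldFull N)

/-- Every element of `ℚ(X₀(N))` is a `ℤ_(ℓ)(j)`-combination of the powers `1, y, …, y^(n-1)` of
the S28 unit (as Laurent series): denominators cleared to `ℤ_(ℓ)[j]`. -/
theorem exists_rl_relation (D : ANData N) (x : FF) :
    ∃ (b : Rl[X]) (a : Fin (Fintype.card D.ι) → Rl[X]), b ≠ 0 ∧
      valF N x * valF N (evF N ℓ (jFull N) b) =
        ∑ i, valF N (evF N ℓ (jFull N) (a i)) * (yUnit ℚ N : LaurentSeries ℚ) ^ (i : ℕ) := by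
  obtain ⟨b, a, hb, hrel⟩ := span_of_ANData N D (valF N x) x.2
  obtain ⟨m, b', a', hm, hb', ha'⟩ := exists_common_int_mul ℓ b a
  have hmQ : (m : ℚ) ≠ 0 := fun h => hm (Subtype.ext h)
  have hb'0 : b' ≠ 0 := by
    intro h
    rw [h, Polynomial.map_zero] at hb'
    exact (mul_ne_zero (C_ne_zero.mpr hmQ) hb) hb'.symm
  refine ⟨b', a', hb'0, ?_⟩
  have key : ∀ c : Rl[X], valF N (evF N ℓ (jFull N) c) =
      aeval jq (c.map (GaloisRep.ratLocalizedAt ℓ).subtype) := by
    intro c
    rw [valF_evF_jFull, iota_aeval]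
  rw [key, hb']
  simp only [key, ha', map_mul, aeval_C]
  rw [mul_left_comm, hrel, Finset.mul_sum]
  exact Finset.sum_congr rfl fun i _ => by ring

theorem coe_aeval_jChartFin (p : Rl[X]) :
    ((aeval (jChartFin N ℓ) p : chartAlgFin N ℓ) : FF) = evF N ℓ (jFull N) p := by
  have h := Polynomial.aeval_algHom_apply (chartAlgFin N ℓ).val (jChartFin N ℓ) p
  exact h.symm

/-- `chartAlgFin N ℓ` is a finitely generated module over `ℤ_(ℓ)[j]`. -/
theorem chartAlgFin_fg :
    ∃ (r : ℕ) (b : Fin r → FF), (∀ i, b i ∈ chartAlgFin N ℓ) ∧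
      ∀ x ∈ chartAlgFin N ℓ, ∃ p : Fin r → Rl[X], x = ∑ i, evF N ℓ (jFull N) (p i) * b i := by
  classical
  obtain ⟨D⟩ := exists_ANData N
  letI algPF : Algebra Rl[X] FF := (evF N ℓ (jFull N)).toAlgebra
  have hinj : Function.Injective (algebraMap Rl[X] FF) := evF_jFull_injective N ℓ
  letI algKF : Algebra (FractionRing Rl[X]) FF := (IsFractionRing.lift hinj).toAlgebra
  haveI : IsScalarTower Rl[X] (FractionRing Rl[X]) FF :=
    IsScalarTower.of_algebraMap_eq fun x => (IsFractionRing.lift_algebraMap hinj x).symm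
  letI algPC : Algebra Rl[X] (chartAlgFin N ℓ) :=
    ((aeval (jChartFin N ℓ) : Rl[X] →ₐ[Rl] chartAlgFin N ℓ) : Rl[X] →+* chartAlgFin N ℓ).toAlgebra
  haveI : IsScalarTower Rl[X] (chartAlgFin N ℓ) FF :=
    IsScalarTower.of_algebraMap_eq fun p => (coe_aeval_jChartFin N ℓ p).symm
  haveI : IsIntegralClosure (chartAlgFin N ℓ) Rl[X] FF :=
    ⟨Subtype.val_injective, fun {x} =>
      ⟨fun hx => ⟨⟨x, (mem_chartAlg_iff N ℓ).mpr
          ((isIntegral_adjoin_singleton_iff (jFull N) x).mpr hx)⟩, rfl⟩,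
        fun ⟨y, hy⟩ => hy ▸ (isIntegral_adjoin_singleton_iff (jFull N) (y : FF)).mp
          ((mem_chartAlg_iff N ℓ).mp y.2)⟩⟩
  haveI : CharZero FF := algebraRat.charZero FF
  haveI : CharZero (FractionRing Rl[X]) := (algebraMap (FractionRing Rl[X]) FF).charZero
  -- finite-dimensionality over `ℤ_(ℓ)(j)`
  haveI : FiniteDimensional (FractionRing Rl[X]) FF := by
    letI algKM : Algebra (FractionRing Rl[X]) (LaurentSeries ℚ) :=
      ((valF N).comp (algebraMap (FractionRing Rl[X]) FF)).toAlgebra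
    let W : Submodule (FractionRing Rl[X]) (LaurentSeries ℚ) :=
      Submodule.span (FractionRing Rl[X])
        (Set.range fun i : Fin (Fintype.card D.ι) => (yUnit ℚ N : LaurentSeries ℚ) ^ (i : ℕ))
    haveI : FiniteDimensional (FractionRing Rl[X]) W :=
      FiniteDimensional.span_of_finite _ (Set.finite_range _)
    have hW : ∀ x : FF, valF N x ∈ W := by
      intro x
      obtain ⟨b, a, hb, hrel⟩ := exists_rl_relation N ℓ D x
      have hβ : algebraMap Rl[X] (FractionRing Rl[X]) b ≠ 0 := by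
        intro h
        exact hb ((IsFractionRing.injective Rl[X] (FractionRing Rl[X])) (by rw [h, map_zero]))
      have hval : ∀ c : Rl[X], valF N (evF N ℓ (jFull N) c) =
          algebraMap (FractionRing Rl[X]) (LaurentSeries ℚ)
            (algebraMap Rl[X] (FractionRing Rl[X]) c) := by
        intro c
        show valF N (algebraMap Rl[X] FF c) = valF N (algebraMap (FractionRing Rl[X]) FF _)
        rw [IsScalarTower.algebraMap_apply Rl[X] (FractionRing Rl[X]) FF]
      have h1 : valF N x = (algebraMap Rl[X] (FractionRing Rl[X]) b)⁻¹ •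
          ∑ i, (algebraMap Rl[X] (FractionRing Rl[X]) (a i)) •
            (yUnit ℚ N : LaurentSeries ℚ) ^ (i : ℕ) := by
        rw [Algebra.smul_def, map_inv₀, ← hval, eq_inv_mul_iff_mul_eq₀
          (by rw [hval]; exact (_root_.map_ne_zero _).mpr hβ), mul_comm, hrel]
        refine Finset.sum_congr rfl fun i _ => ?_
        rw [Algebra.smul_def, hval]
      rw [h1]
      refine W.smul_mem _ (W.sum_mem fun i _ => W.smul_mem _ (Submodule.subset_span ⟨i, rfl⟩))
    let f : FF →ₗ[FractionRing Rl[X]] W :=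
      { toFun := fun x => ⟨valF N x, hW x⟩
        map_add' := fun x y => Subtype.ext (map_add (valF N) x y)
        map_smul' := fun c x => Subtype.ext (by
          show valF N (c • x) = c • valF N x
          rw [Algebra.smul_def, Algebra.smul_def, map_mul]
          rfl) }
    have hf : Function.Injective f := by
      intro x y hxy
      have h3 := congrArg (fun w : W => (w : LaurentSeries ℚ)) hxy
      exact valF_injective N h3
    exact FiniteDimensional.of_injective f hf
  have hfin : Module.Finite Rl[X] (chartAlgFin N ℓ) :=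
    IsIntegralClosure.finite Rl[X] (FractionRing Rl[X]) FF (chartAlgFin N ℓ)
  obtain ⟨r, s, hs⟩ := Module.Finite.exists_fin (R := Rl[X]) (M := chartAlgFin N ℓ)
  refine ⟨r, fun i => (s i : FF), fun i => (s i).2, fun x hx => ?_⟩
  have hmem : (⟨x, hx⟩ : chartAlgFin N ℓ) ∈ Submodule.span Rl[X] (Set.range s) := by
    rw [hs]; trivial
  obtain ⟨c, hc⟩ := (Submodule.mem_span_range_iff_exists_fun Rl[X]).mp hmem
  refine ⟨c, ?_⟩
  have h2 : ((∑ i, c i • s i : chartAlgFin N ℓ) : FF) = x := congrArg Subtype.val hc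
  rw [← h2]
  rw [AddSubmonoidClass.coe_finsetSum]
  refine Finset.sum_congr rfl fun i _ => ?_
  rw [Algebra.smul_def]
  show ((aeval (jChartFin N ℓ) (c i) * s i : chartAlgFin N ℓ) : FF) = _
  rw [Subalgebra.coe_mul, coe_aeval_jChartFin]

end Fermat.Agent.S18.HAUPT3442
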