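import Fermat.Agent.S18.HAUPT.P3
import Fermat.Agent.S18.HAUPT.P4
import Fermat.Prelude.Def_ModularCurve_IgusaScheme
import Fermat.Agent.S28.QRed.Base
import Fermat.Agent.S18.HAUPT3442.LaurentClosure
import Fermat.Agent.S18.HAUPT3442.FinGen

/-!
# S18 / HAUPT, piece 6 (helper3442): T-design (F2) in the language of the Prelude chart algebras

All 12 statements of the skeleton `Fermat/Agent/S18/HAUPT/P6.lean` (PL helper442, skeleton v2),
VERBATIM, in the namespace `Fermat.Agent.S18.HAUPT3442`.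

Inputs: the skeleton statements of pieces 3 and 4 (`hauptT*_jq`, `hauptT*_mem`,
`haupt_modularFunctionField_two/three`, `hauptT*_transcendental`), the abstract Laurent closure
lemmas of helper7666 (`LaurentClosure.lean`, copied), the finiteness of `chartAlgFin` over
`ℤ_(ℓ)[j]` of helper8089 (`FinGen.lean`, copied) and the landed S28 tree (`ℤ_(ℓ)` is integrally
closed).
-/

set_option autoImplicit false
set_option linter.unusedSectionVars false

namespace Fermat.Agent.S18.HAUPT3442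

open ModularCurve ModularCurve.IgusaScheme Polynomial

/-! ### Generalities -/

theorem p6_isFractionRing_ratLoc (p : ℕ) :
    IsFractionRing (GaloisRep.ratLocalizedAt p) ℚ := by
  apply IsFractionRing.of_field
  intro z
  refine ⟨⟨(z.num : ℚ), ?_⟩, ⟨(z.den : ℚ), ?_⟩, ?_⟩
  · show ((z.num : ℚ)).den.Coprime p
    simp
  · show ((z.den : ℚ)).den.Coprime p
    simp
  · exact (Rat.num_div_den z).symm

/-- `n ≠ 0` is a unit of `ℤ_(p)` when `n` is prime to `p`. -/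
theorem p6_isUnit_natCast_ratLoc (p n : ℕ) (hn0 : n ≠ 0) (hn : n.Coprime p) :
    IsUnit ((n : ℕ) : GaloisRep.ratLocalizedAt p) := by
  have hmem : ((n : ℚ)⁻¹) ∈ GaloisRep.ratLocalizedAt p := by
    show ((n : ℚ)⁻¹).den.Coprime p
    rw [Rat.inv_natCast_den, if_neg hn0]
    exact hn
  refine IsUnit.of_mul_eq_one (⟨(n : ℚ)⁻¹, hmem⟩ : GaloisRep.ratLocalizedAt p)
    (Subtype.ext ?_)
  show ((n : ℕ) : ℚ) * (n : ℚ)⁻¹ = 1
  exact mul_inv_cancel₀ (by exact_mod_cast hn0)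

/-- `ℚ(X₀(p)) = ℚ(j, j(q^p))` for a prime `p`. -/
theorem p6_full_prime_eq (p : ℕ) [NeZero p] (hp : p.Prime) :
    modularFunctionFieldFull p = modularFunctionField p := by
  apply le_antisymm
  · rw [modularFunctionFieldFull, IntermediateField.adjoin_le_iff]
    rintro x ⟨d, hne, hdvd, rfl⟩
    rcases (Nat.dvd_prime hp).mp hdvd with rfl | rfl
    · rw [qExpand_one_apply]
      exact jq_mem p
    · exact jqN_mem d
  · exact modularFunctionField_le_full p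

section Field

variable {M : ℕ} [NeZero M]

/-- Evaluation of rational polynomials commutes with the inclusion `ℚ(X₀(M)) ⊆ ℚ((q))`. -/
theorem p6_coe_aeval (x : ↥(modularFunctionFieldFull M)) {t : LaurentSeries ℚ}
    (hx : (x : LaurentSeries ℚ) = t) (p : ℚ[X]) :
    ((aeval x p : ↥(modularFunctionFieldFull M)) : LaurentSeries ℚ) = aeval t p := by
  have h1 := Polynomial.hom_eval₂ p (algebraMap ℚ ↥(modularFunctionFieldFull M))
    (modularFunctionFieldFull M).toSubfield.subtype x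
  have h2 : (modularFunctionFieldFull M).toSubfield.subtype.comp
      (algebraMap ℚ ↥(modularFunctionFieldFull M)) = algebraMap ℚ (LaurentSeries ℚ) :=
    Subsingleton.elim _ _
  rw [h2] at h1
  rw [aeval_def, aeval_def, ← hx]
  exact h1

/-- Transcendence passes from the Laurent series to the element of the function field. -/
theorem p6_transcendental_of_coe (x : ↥(modularFunctionFieldFull M)) {t : LaurentSeries ℚ}
    (hx : (x : LaurentSeries ℚ) = t) (ht : Transcendental ℚ t) : Transcendental ℚ x := by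
  rintro ⟨p, hp, h⟩
  refine ht ⟨p, hp, ?_⟩
  rw [← p6_coe_aeval x hx p, h]
  rfl

/-- If `ℚ(X₀(M)) = ℚ(t)` inside `ℚ((q))`, then `x = t` generates `ℚ(X₀(M))` over `ℚ`. -/
theorem p6_adjoin_eq_top (x : ↥(modularFunctionFieldFull M)) {t : LaurentSeries ℚ}
    (hx : (x : LaurentSeries ℚ) = t)
    (hF : modularFunctionFieldFull M = IntermediateField.adjoin ℚ {t}) :
    IntermediateField.adjoin ℚ {x} = ⊤ := by
  rw [eq_top_iff]
  rintro z -
  have hz : (z : LaurentSeries ℚ) ∈ IntermediateField.adjoin ℚ {t} := hF ▸ z.2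
  obtain ⟨r, s, hrs⟩ := (IntermediateField.mem_adjoin_simple_iff ℚ _).mp hz
  rw [IntermediateField.mem_adjoin_simple_iff]
  refine ⟨r, s, Subtype.ext ?_⟩
  rw [hrs]
  show aeval t r / aeval t s =
    (((aeval x r / aeval x s : ↥(modularFunctionFieldFull M))) : LaurentSeries ℚ)
  rw [← p6_coe_aeval x hx r, ← p6_coe_aeval x hx s]
  rfl

end Field

/-! ### The two Hauptmodul polynomials over `ℤ_(ℓ)` -/

section Poly

variable (ℓ : ℕ) [Fact ℓ.Prime]

set_option quotPrecheck false in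
local notation "Rl" => ↥(GaloisRep.ratLocalizedAt ℓ)

/-- `(X + 256)³`. -/
noncomputable def p6P2 : Rl[X] := (X + C (256 : Rl)) ^ 3

/-- `(X + 27)(X + 243)³`. -/
noncomputable def p6P3 : Rl[X] := (X + C (27 : Rl)) * (X + C (243 : Rl)) ^ 3

theorem p6P2_monic : (p6P2 ℓ).Monic := (monic_X_add_C _).pow 3

theorem p6P3_monic : (p6P3 ℓ).Monic := (monic_X_add_C _).mul ((monic_X_add_C _).pow 3)

theorem p6P2_natDegree : (p6P2 ℓ).natDegree = 3 := by
  rw [p6P2, natDegree_pow, natDegree_X_add_C]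

theorem p6P3_natDegree : (p6P3 ℓ).natDegree = 4 := by
  rw [p6P3, (monic_X_add_C _).natDegree_mul ((monic_X_add_C _).pow 3), natDegree_pow,
    natDegree_X_add_C, natDegree_X_add_C]

theorem p6P2_coeff_zero (hℓ : ℓ ≠ 2) : IsUnit ((p6P2 ℓ).coeff 0) := by
  have hcoeff : (p6P2 ℓ).coeff 0 = ((16777216 : ℕ) : Rl) := by
    rw [p6P2, coeff_zero_eq_eval_zero]
    simp
    norm_num
  rw [hcoeff]
  refine p6_isUnit_natCast_ratLoc ℓ 16777216 (by norm_num) ?_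
  have h2 : Nat.Coprime 2 ℓ :=
    (Nat.coprime_primes Nat.prime_two (Fact.out : ℓ.Prime)).mpr (Ne.symm hℓ)
  have : (16777216 : ℕ) = 2 ^ 24 := by norm_num
  rw [this]
  exact Nat.Coprime.pow_left 24 h2

theorem p6P3_coeff_zero (hℓ : ℓ ≠ 3) : IsUnit ((p6P3 ℓ).coeff 0) := by
  have hcoeff : (p6P3 ℓ).coeff 0 = ((387420489 : ℕ) : Rl) := by
    rw [p6P3, coeff_zero_eq_eval_zero]
    simp
    norm_num
  rw [hcoeff]
  refine p6_isUnit_natCast_ratLoc ℓ 387420489 (by norm_num) ?_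
  have h3 : Nat.Coprime 3 ℓ :=
    (Nat.coprime_primes Nat.prime_three (Fact.out : ℓ.Prime)).mpr (Ne.symm hℓ)
  have : (387420489 : ℕ) = 3 ^ 18 := by norm_num
  rw [this]
  exact Nat.Coprime.pow_left 18 h3

variable (M : ℕ) [NeZero M]

/-- `j · t₂² = P₂(t₂)` in `ℚ(X₀(M))`. -/
theorem p6_rel2 (x : ↥(modularFunctionFieldFull M)) (hx : (x : LaurentSeries ℚ) = hauptT2 ℚ) :
    jFull M * x ^ 2 = aeval x (p6P2 ℓ) := by
  rw [p6P2, map_pow, map_add, aeval_X, aeval_C, map_ofNat]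
  apply Subtype.ext
  show jq * (x : LaurentSeries ℚ) ^ 2 = ((x : LaurentSeries ℚ) + 256) ^ 3
  rw [hx]
  exact hauptT2_jq ℚ

/-- `j · t₃³ = P₃(t₃)` in `ℚ(X₀(M))`. -/
theorem p6_rel3 (x : ↥(modularFunctionFieldFull M)) (hx : (x : LaurentSeries ℚ) = hauptT3 ℚ) :
    jFull M * x ^ 3 = aeval x (p6P3 ℓ) := by
  rw [p6P3, map_mul, map_pow, map_add, map_add, aeval_X, aeval_C, aeval_C, map_ofNat, map_ofNat]
  apply Subtype.ext
  show jq * (x : LaurentSeries ℚ) ^ 3 =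
    ((x : LaurentSeries ℚ) + 27) * ((x : LaurentSeries ℚ) + 243) ^ 3
  rw [hx]
  exact hauptT3_jq ℚ

open Fermat.Agent.S28.QRed in
/-- Abstract form of `haupt_chartAlgFin_fg_*`: if `j · x ^ m = P(x)` with `P ∈ ℤ_(ℓ)[X]` monic,
`0 < m < deg P`, `P(0)` a unit, then `A_fin(M)` is a finitely generated module over
`ℤ_(ℓ)[x, 1/x]`. -/
theorem p6_fg (x : ↥(modularFunctionFieldFull M)) (P : Rl[X]) (hP : P.Monic) (m : ℕ)
    (hm0 : 0 < m) (hm : m < P.natDegree) (hP0 : IsUnit (P.coeff 0))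
    (hj : jFull M * x ^ m = aeval x P) :
    ∃ s : Finset ↥(modularFunctionFieldFull M), ∀ y : ↥(modularFunctionFieldFull M),
      y ∈ chartAlgFin M ℓ ↔
        y ∈ Submodule.span (Algebra.adjoin ↥(GaloisRep.ratLocalizedAt ℓ) {x, x⁻¹})
          (s : Set ↥(modularFunctionFieldFull M)) := by
  classical
  obtain ⟨r, b, hb, hgen⟩ := chartAlgFin_fg M ℓ
  have hx0 : x ≠ 0 := by
    rintro rfl
    have h0 : aeval (0 : ↥(modularFunctionFieldFull M)) P = 0 := by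
      rw [← hj, zero_pow hm0.ne', mul_zero]
    rw [aeval_def, eval₂_at_zero] at h0
    exact (hP0.map (algebraMap Rl ↥(modularFunctionFieldFull M))).ne_zero h0
  have hjT : jFull M ∈ Algebra.adjoin Rl {x, x⁻¹} :=
    mem_adjoin_pair_of_mul_pow_eq x (jFull M) hx0 P m hj
  have hTle : ∀ z ∈ Algebra.adjoin Rl {x, x⁻¹}, z ∈ chartAlgFin M ℓ := fun z hz =>
    (mem_chartAlg_iff M ℓ).mpr
      (adjoin_pair_le_integralClosure x (jFull M) P hP m hm0 hm hP0 hj hz)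
  refine ⟨Finset.univ.image b, fun y => ⟨fun hy => ?_, fun hy => ?_⟩⟩
  · obtain ⟨p, rfl⟩ := hgen y hy
    refine Submodule.sum_mem _ fun i _ => ?_
    have hev : evF M ℓ (jFull M) (p i) ∈ Algebra.adjoin Rl {x, x⁻¹} := by
      have h1 : evF M ℓ (jFull M) (p i) ∈ Algebra.adjoin Rl {jFull M} :=
        aeval_mem_adjoin_singleton Rl (jFull M)
      exact Algebra.adjoin_le (Set.singleton_subset_iff.mpr hjT) h1
    have hsm : evF M ℓ (jFull M) (p i) * b i =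
        (⟨_, hev⟩ : Algebra.adjoin Rl {x, x⁻¹}) • b i := rfl
    rw [hsm]
    exact Submodule.smul_mem _ _ (Submodule.subset_span (by simp))
  · refine Submodule.span_induction (p := fun z _ => z ∈ chartAlgFin M ℓ) ?_ ?_ ?_ ?_ hy
    · intro z hz
      simp only [Finset.coe_image, Finset.coe_univ, Set.image_univ, Set.mem_range] at hz
      obtain ⟨i, rfl⟩ := hz
      exact hb i
    · exact zero_mem _
    · intro a c _ _ ha hc
      exact add_mem ha hc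
    · intro a z _ hz
      exact mul_mem (hTle a a.2) hz

end Poly

/-! ### The statements of `HAUPT/P6.lean` -/

theorem hauptT2_mem_full (M : ℕ) [NeZero M] (hM : 2 ∣ M) :
    hauptT2 ℚ ∈ modularFunctionFieldFull M :=
  full_degeneracy_le hM (modularFunctionField_le_full 2 hauptT2_mem)

theorem hauptT3_mem_full (M : ℕ) [NeZero M] (hM : 3 ∣ M) :
    hauptT3 ℚ ∈ modularFunctionFieldFull M :=
  full_degeneracy_le hM (modularFunctionField_le_full 3 hauptT3_mem)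

/-- `ℚ(X₀(2)) = ℚ(j, j(q²)) = ℚ(t₂)`. -/
theorem haupt_full_two : modularFunctionFieldFull 2 = IntermediateField.adjoin ℚ {hauptT2 ℚ} := by
  rw [p6_full_prime_eq 2 Nat.prime_two, haupt_modularFunctionField_two]

/-- `ℚ(X₀(3)) = ℚ(j, j(q³)) = ℚ(t₃)`. -/
theorem haupt_full_three : modularFunctionFieldFull 3 = IntermediateField.adjoin ℚ {hauptT3 ℚ} := by
  rw [p6_full_prime_eq 3 Nat.prime_three, haupt_modularFunctionField_three]

variable (ℓ : ℕ) [Fact ℓ.Prime]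

/-- `t₂` and `1/t₂` are integral over `ℤ_(ℓ)[j]`, `ℓ ≠ 2`. -/
theorem hauptT2_mem_chartAlgFin (hℓ : ℓ ≠ 2) (M : ℕ) [NeZero M]
    (x : ↥(modularFunctionFieldFull M)) (hx : (x : LaurentSeries ℚ) = hauptT2 ℚ) :
    x ∈ chartAlgFin M ℓ ∧ x⁻¹ ∈ chartAlgFin M ℓ := by
  have hj := p6_rel2 ℓ M x hx
  have hm : 2 < (p6P2 ℓ).natDegree := by rw [p6P2_natDegree]; norm_num
  exact ⟨(mem_chartAlg_iff M ℓ).mpr
      (isIntegral_adjoin_self x (jFull M) (p6P2 ℓ) (p6P2_monic ℓ) 2 hm hj),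
    (mem_chartAlg_iff M ℓ).mpr
      (isIntegral_adjoin_inv x (jFull M) (p6P2 ℓ) (p6P2_monic ℓ) 2 (by norm_num) hm
        (p6P2_coeff_zero ℓ hℓ) hj)⟩

/-- `t₃` and `1/t₃` are integral over `ℤ_(ℓ)[j]`, `ℓ ≠ 3`. -/
theorem hauptT3_mem_chartAlgFin (hℓ : ℓ ≠ 3) (M : ℕ) [NeZero M]
    (x : ↥(modularFunctionFieldFull M)) (hx : (x : LaurentSeries ℚ) = hauptT3 ℚ) :
    x ∈ chartAlgFin M ℓ ∧ x⁻¹ ∈ chartAlgFin M ℓ := by
  have hj := p6_rel3 ℓ M x hx
  have hm : 3 < (p6P3 ℓ).natDegree := by rw [p6P3_natDegree]; norm_num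
  exact ⟨(mem_chartAlg_iff M ℓ).mpr
      (isIntegral_adjoin_self x (jFull M) (p6P3 ℓ) (p6P3_monic ℓ) 3 hm hj),
    (mem_chartAlg_iff M ℓ).mpr
      (isIntegral_adjoin_inv x (jFull M) (p6P3 ℓ) (p6P3_monic ℓ) 3 (by norm_num) hm
        (p6P3_coeff_zero ℓ hℓ) hj)⟩

/-- `A_fin(2) = ℤ_(ℓ)[t₂, 1/t₂]`, `ℓ ≠ 2`. -/
theorem haupt_chartAlgFin_two (hℓ : ℓ ≠ 2)
    (x : ↥(modularFunctionFieldFull 2)) (hx : (x : LaurentSeries ℚ) = hauptT2 ℚ) :
    chartAlgFin 2 ℓ = Algebra.adjoin ↥(GaloisRep.ratLocalizedAt ℓ) {x, x⁻¹} := by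
  have hfr := p6_isFractionRing_ratLoc ℓ
  have hj := p6_rel2 ℓ 2 x hx
  have hm : 2 < (p6P2 ℓ).natDegree := by rw [p6P2_natDegree]; norm_num
  have ht : Transcendental ℚ x := p6_transcendental_of_coe x hx (hauptT2_transcendental ℚ)
  have hF : IntermediateField.adjoin ℚ {x} = ⊤ := p6_adjoin_eq_top x hx haupt_full_two
  ext y
  exact (mem_chartAlg_iff 2 ℓ).trans
    (isIntegral_adjoin_iff_mem_adjoin_pair (K := ℚ) x (jFull 2) ht hF (p6P2 ℓ) (p6P2_monic ℓ) 2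
      (by norm_num) hm (p6P2_coeff_zero ℓ hℓ) hj y)

/-- `A_fin(3) = ℤ_(ℓ)[t₃, 1/t₃]`, `ℓ ≠ 3`. -/
theorem haupt_chartAlgFin_three (hℓ : ℓ ≠ 3)
    (x : ↥(modularFunctionFieldFull 3)) (hx : (x : LaurentSeries ℚ) = hauptT3 ℚ) :
    chartAlgFin 3 ℓ = Algebra.adjoin ↥(GaloisRep.ratLocalizedAt ℓ) {x, x⁻¹} := by
  have hfr := p6_isFractionRing_ratLoc ℓ
  have hj := p6_rel3 ℓ 3 x hx
  have hm : 3 < (p6P3 ℓ).natDegree := by rw [p6P3_natDegree]; norm_num
  have ht : Transcendental ℚ x := p6_transcendental_of_coe x hx (hauptT3_transcendental ℚ)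
  have hF : IntermediateField.adjoin ℚ {x} = ⊤ := p6_adjoin_eq_top x hx haupt_full_three
  ext y
  exact (mem_chartAlg_iff 3 ℓ).trans
    (isIntegral_adjoin_iff_mem_adjoin_pair (K := ℚ) x (jFull 3) ht hF (p6P3 ℓ) (p6P3_monic ℓ) 3
      (by norm_num) hm (p6P3_coeff_zero ℓ hℓ) hj y)

/-- For `2 ∣ M`, `ℓ ≠ 2`: `A_fin(M)` is the integral closure of `ℤ_(ℓ)[t₂, 1/t₂]` in `ℚ(X₀(M))`. -/
theorem haupt_chartAlgFin_integral_two (hℓ : ℓ ≠ 2) (M : ℕ) [NeZero M]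
    (x : ↥(modularFunctionFieldFull M)) (hx : (x : LaurentSeries ℚ) = hauptT2 ℚ)
    (y : ↥(modularFunctionFieldFull M)) :
    y ∈ chartAlgFin M ℓ ↔
      IsIntegral (Algebra.adjoin ↥(GaloisRep.ratLocalizedAt ℓ) {x, x⁻¹}) y := by
  have hj := p6_rel2 ℓ M x hx
  have hm : 2 < (p6P2 ℓ).natDegree := by rw [p6P2_natDegree]; norm_num
  exact (mem_chartAlg_iff M ℓ).trans
    (isIntegral_adjoin_iff_isIntegral_adjoin_pair x (jFull M) (p6P2 ℓ) (p6P2_monic ℓ) 2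
      (by norm_num) hm (p6P2_coeff_zero ℓ hℓ) hj y)

/-- For `3 ∣ M`, `ℓ ≠ 3`: `A_fin(M)` is the integral closure of `ℤ_(ℓ)[t₃, 1/t₃]` in `ℚ(X₀(M))`. -/
theorem haupt_chartAlgFin_integral_three (hℓ : ℓ ≠ 3) (M : ℕ) [NeZero M]
    (x : ↥(modularFunctionFieldFull M)) (hx : (x : LaurentSeries ℚ) = hauptT3 ℚ)
    (y : ↥(modularFunctionFieldFull M)) :
    y ∈ chartAlgFin M ℓ ↔
      IsIntegral (Algebra.adjoin ↥(GaloisRep.ratLocalizedAt ℓ) {x, x⁻¹}) y := by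
  have hj := p6_rel3 ℓ M x hx
  have hm : 3 < (p6P3 ℓ).natDegree := by rw [p6P3_natDegree]; norm_num
  exact (mem_chartAlg_iff M ℓ).trans
    (isIntegral_adjoin_iff_isIntegral_adjoin_pair x (jFull M) (p6P3 ℓ) (p6P3_monic ℓ) 3
      (by norm_num) hm (p6P3_coeff_zero ℓ hℓ) hj y)

/-- For `2 ∣ M`, `ℓ ≠ 2`: `A_fin(M)` is a finitely generated `ℤ_(ℓ)[t₂, 1/t₂]`-module. -/
theorem haupt_chartAlgFin_fg_two (hℓ : ℓ ≠ 2) (M : ℕ) [NeZero M]
    (x : ↥(modularFunctionFieldFull M)) (hx : (x : LaurentSeries ℚ) = hauptT2 ℚ) :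
    ∃ s : Finset ↥(modularFunctionFieldFull M), ∀ y : ↥(modularFunctionFieldFull M),
      y ∈ chartAlgFin M ℓ ↔
        y ∈ Submodule.span (Algebra.adjoin ↥(GaloisRep.ratLocalizedAt ℓ) {x, x⁻¹})
          (s : Set ↥(modularFunctionFieldFull M)) :=
  p6_fg ℓ M x (p6P2 ℓ) (p6P2_monic ℓ) 2 (by norm_num) (by rw [p6P2_natDegree]; norm_num)
    (p6P2_coeff_zero ℓ hℓ) (p6_rel2 ℓ M x hx)

/-- For `3 ∣ M`, `ℓ ≠ 3`: `A_fin(M)` is a finitely generated `ℤ_(ℓ)[t₃, 1/t₃]`-module. -/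
theorem haupt_chartAlgFin_fg_three (hℓ : ℓ ≠ 3) (M : ℕ) [NeZero M]
    (x : ↥(modularFunctionFieldFull M)) (hx : (x : LaurentSeries ℚ) = hauptT3 ℚ) :
    ∃ s : Finset ↥(modularFunctionFieldFull M), ∀ y : ↥(modularFunctionFieldFull M),
      y ∈ chartAlgFin M ℓ ↔
        y ∈ Submodule.span (Algebra.adjoin ↥(GaloisRep.ratLocalizedAt ℓ) {x, x⁻¹})
          (s : Set ↥(modularFunctionFieldFull M)) :=
  p6_fg ℓ M x (p6P3 ℓ) (p6P3_monic ℓ) 3 (by norm_num) (by rw [p6P3_natDegree]; norm_num)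
    (p6P3_coeff_zero ℓ hℓ) (p6_rel3 ℓ M x hx)

end Fermat.Agent.S18.HAUPT3442
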